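/-
T4E P3 (AL; helper4): **the Atkin–Lehner data `T4eAL` of every level `t4eLev N'' p i` over the level
fields `L_H = tbFix 𝔓 H`** (`p = 𝔓.p ∤ N''`), from lead's generic `t4wLev` (`Q = p^i`):

* `t4eaW 𝔓 H N'' h i` : the involution `w_{p^i}` of `F_i = tbLevF 𝔓 (t4eLev N'' p i) H`;
* `t4eaW_deg` : `w (a_k f) = a_{i-k} f` (`k ≤ i`), `t4eaW_t4eaW` : `w ∘ w = id`;
* **`t4eALFix 𝔓 H N'' h i : T4eAL ↥(tbFix 𝔓 H) N'' 𝔓.p i`**;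
* `t4eaW_alpha` : `w_{i+1} ∘ α = β ∘ w_i`, `t4eaW_beta` : `w_{i+1} ∘ β = α ∘ w_i`;
* `tbPhiF_t4eaW` : compatibility with `t4w` over `ℚ̄`.
-/
import Mathlib
import Fermat.Agent.Lib.T4E.Tower.Defs
import Fermat.Agent.Lib.T4E.New.ALe

set_option autoImplicit false
set_option linter.unusedSectionVars false
set_option linter.unusedVariables false
set_option linter.style.haveILetI false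
set_option synthInstance.maxHeartbeats 400000

open Fermat.Agent.T1 Fermat.Agent.T2 Fermat.Agent.TW ModularCurve Fermat.Agent.S24Lib
  AlgebraicCurve HahnSeries Fermat.Agent.S05Lib

noncomputable section

namespace Fermat.Agent.T4

local notation "Qb" => AlgebraicClosure ℚ

section Fix

variable (𝔓 : FFPlace) (H : Subgroup 𝔓.I) (N'' : ℕ) [NeZero N''] (h : ¬ 𝔓.p ∣ N'')

include h in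
/-- `p^i` is prime to `N''` -/
theorem t4ea_coprime (i : ℕ) : Nat.Coprime (𝔓.p ^ i) N'' :=
  Nat.Coprime.pow_left i ((Nat.Prime.coprime_iff_not_dvd 𝔓.hp).mpr h)

/-- **`w_{p^i}` at level `H`** -/
def t4eaW (i : ℕ) : tbLevF 𝔓 (t4eLev N'' 𝔓.p i) H ≃ₐ[↥(tbFix 𝔓 H)]
    tbLevF 𝔓 (t4eLev N'' 𝔓.p i) H :=
  t4wLev 𝔓 H (t4eLev N'' 𝔓.p i) N'' (𝔓.p ^ i) (t4eLev_eq N'' 𝔓.p i) (t4ea_coprime 𝔓 N'' h i)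

theorem t4eaW_t4eaW (i : ℕ) (f : tbLevF 𝔓 (t4eLev N'' 𝔓.p i) H) :
    t4eaW 𝔓 H N'' h i (t4eaW 𝔓 H N'' h i f) = f :=
  t4wLev_t4wLev 𝔓 H _ _ _ _ _ f

/-- compatibility with the involution `t4w` over `ℚ̄` -/
theorem tbPhiF_t4eaW (i : ℕ) (f : tbLevF 𝔓 (t4eLev N'' 𝔓.p i) H) :
    tbPhiF 𝔓 (t4eLev N'' 𝔓.p i) H (t4eaW 𝔓 H N'' h i f)
      = t4w Qb (t4eLev N'' 𝔓.p i) N'' (𝔓.p ^ i) (t4eLev_eq N'' 𝔓.p i) (t4ea_coprime 𝔓 N'' h i)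
          (tbPhiF 𝔓 (t4eLev N'' 𝔓.p i) H f) :=
  tbPhiF_t4wLev 𝔓 H _ _ _ _ _ f

/-- the degeneracy map `a_k` on the generators: `a_k (j(𝔮^d)) = j(𝔮^(d p^k))` -/
theorem t4ea_deg_jd (i k : ℕ) (hk : k ≤ i) {d : ℕ} (hd : d ∣ N'') {e' : ℕ}
    (he : 𝔓.p ^ k * e' = 𝔓.p ^ i) :
    t4eDeg ↥(tbFix 𝔓 H) N'' 𝔓.p i k (t2wJd ↥(tbFix 𝔓 H) N'' d hd)
      = t2wJd ↥(tbFix 𝔓 H) (t4eLev N'' 𝔓.p i) (d * 𝔓.p ^ k)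
          (t4w_dvd _ N'' (𝔓.p ^ i) (t4eLev_eq N'' 𝔓.p i) hd he) := by
  haveI : NeZero d := t2w_neZero_of_dvd N'' hd
  haveI : NeZero (𝔓.p ^ k) := ⟨pow_ne_zero k 𝔓.hp.ne_zero⟩
  haveI : NeZero (d * 𝔓.p ^ k) := ⟨Nat.mul_ne_zero (NeZero.ne d) (NeZero.ne _)⟩
  apply Subtype.ext
  rw [coe_t4eDeg _ _ _ i k hk, coe_t2wJd _ N'' d hd, coe_t2wJd _ _ (d * 𝔓.p ^ k),
    qExpand_qExpand]
  exact t4w_qExpand_congr _ _ (mul_comm _ _) _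

/-- **`w_{p^i} (a_k f) = a_{i-k} f`** -/
theorem t4eaW_deg (i k : ℕ) (hk : k ≤ i) (f : ↥(TaF ↥(tbFix 𝔓 H) N'')) :
    t4eaW 𝔓 H N'' h i (t4eDeg ↥(tbFix 𝔓 H) N'' 𝔓.p i k f)
      = t4eDeg ↥(tbFix 𝔓 H) N'' 𝔓.p i (i - k) f := by
  have key :
      (((t4eaW 𝔓 H N'' h i : tbLevF 𝔓 (t4eLev N'' 𝔓.p i) H ≃ₐ[↥(tbFix 𝔓 H)] _) :
          tbLevF 𝔓 (t4eLev N'' 𝔓.p i) H →+* tbLevF 𝔓 (t4eLev N'' 𝔓.p i) H).comp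
        ((t4eDeg ↥(tbFix 𝔓 H) N'' 𝔓.p i k : ↥(TaF ↥(tbFix 𝔓 H) N'') →ₐ[↥(tbFix 𝔓 H)] _) :
          ↥(TaF ↥(tbFix 𝔓 H) N'') →+* tbLevF 𝔓 (t4eLev N'' 𝔓.p i) H))
      = ((t4eDeg ↥(tbFix 𝔓 H) N'' 𝔓.p i (i - k) : ↥(TaF ↥(tbFix 𝔓 H) N'') →ₐ[↥(tbFix 𝔓 H)] _) :
          ↥(TaF ↥(tbFix 𝔓 H) N'') →+* tbLevF 𝔓 (t4eLev N'' 𝔓.p i) H) := by
    apply t2w_ringHom_ext ↥(tbFix 𝔓 H) N''
    · intro c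
      simp
    · intro d hd
      have he : 𝔓.p ^ k * 𝔓.p ^ (i - k) = 𝔓.p ^ i := by
        rw [← _root_.pow_add, Nat.add_sub_cancel' hk]
      have he' : 𝔓.p ^ (i - k) * 𝔓.p ^ k = 𝔓.p ^ i := by rw [mul_comm, he]
      show t4eaW 𝔓 H N'' h i (t4eDeg _ N'' 𝔓.p i k (t2wJd ↥(tbFix 𝔓 H) N'' d hd))
        = t4eDeg _ N'' 𝔓.p i (i - k) (t2wJd ↥(tbFix 𝔓 H) N'' d hd)
      rw [t4ea_deg_jd 𝔓 H N'' i k hk hd he, t4ea_deg_jd 𝔓 H N'' i (i - k) (Nat.sub_le i k) hd he']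
      exact t4wLev_jd 𝔓 H _ _ _ _ _ hd he
  exact RingHom.congr_fun key f

/-- **the Atkin–Lehner data of level `t4eLev N'' p i` over `L_H`** -/
def t4eALFix (i : ℕ) : T4eAL ↥(tbFix 𝔓 H) N'' 𝔓.p i where
  w := t4eaW 𝔓 H N'' h i
  w_a := fun k hk f => t4eaW_deg 𝔓 H N'' h i k hk f
  w_w := t4eaW_t4eaW 𝔓 H N'' h i

/-- **`w_{p^(i+1)} ∘ α = β ∘ w_{p^i}`** -/
theorem t4eaW_alpha (i : ℕ) (f : ↥(TaF ↥(tbFix 𝔓 H) (t4eLev N'' 𝔓.p i))) :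
    t4eaW 𝔓 H N'' h (i + 1) (heckeAlphaBar ↥(tbFix 𝔓 H) (t4eLev N'' 𝔓.p i) 𝔓.p f)
      = heckeBetaBar ↥(tbFix 𝔓 H) (t4eLev N'' 𝔓.p i) 𝔓.p (t4eaW 𝔓 H N'' h i f) :=
  t4e_wLev_alpha 𝔓 H (t4eLev N'' 𝔓.p i) N'' (𝔓.p ^ i) (𝔓.p ^ (i + 1)) (t4eLev_eq N'' 𝔓.p i)
    (t4ea_coprime 𝔓 N'' h i) (t4eLev_eq N'' 𝔓.p (i + 1)) (t4ea_coprime 𝔓 N'' h (i + 1))
    (pow_succ _ _) f

/-- **`w_{p^(i+1)} ∘ β = α ∘ w_{p^i}`** -/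
theorem t4eaW_beta (i : ℕ) (f : ↥(TaF ↥(tbFix 𝔓 H) (t4eLev N'' 𝔓.p i))) :
    t4eaW 𝔓 H N'' h (i + 1) (heckeBetaBar ↥(tbFix 𝔓 H) (t4eLev N'' 𝔓.p i) 𝔓.p f)
      = heckeAlphaBar ↥(tbFix 𝔓 H) (t4eLev N'' 𝔓.p i) 𝔓.p (t4eaW 𝔓 H N'' h i f) := by
  have h1 := t4eaW_alpha 𝔓 H N'' h i (t4eaW 𝔓 H N'' h i f)
  rw [t4eaW_t4eaW] at h1
  rw [← h1, t4eaW_t4eaW]

end Fix

end Fermat.Agent.T4
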